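/-
Project H (S43) / LGC / Abs / ConstLike   (helper9)

One Gauss datum `V` on `F / L` over a valuation ring `A` of `L`, semilinear automorphisms of `F / L`.

* `Preserves V σ`   : `σ` preserves the valuation of `A` and the valuation ring of `V`;
* `SameRed V σ σ'`  : `σ` and `σ'` induce the same map on the residue field;
* `FixesConst V σ`  : `σ` fixes the constants of the residue field;
* `IsConstLike V h` : `h = κ v` with `κ ∈ Lˣ` and `red v = 1`;
* `IsUnitConst V h` : the same with `κ ∈ Aˣ` (then `red h` is a nonzero constant).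

Two lemmas (generalising `LSb.redF_smul_div_const`):
* `SameRed.isUnitConst`     : `σ f / σ' f` is unit-constant for every `f ≠ 0` when `SameRed V σ σ'`;
* `IsConstLike.isUnitConst` : `σ h / σ' h` is unit-constant when `h` is constant-like and `σ, σ'`
  fix the constants.
-/
import Fermat.Agent.LSb.Core.CechFinal

set_option autoImplicit false

noncomputable section

namespace Fermat.Agent.S43lib.LGC.Abs

open AlgebraicCurve Fermat.Agent Fermat.Agent.LSb

variable {L : Type*} [Field L] {A : ValuationSubring L}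
variable {F : Type*} [Field F] [Algebra L F]
variable {Fk : Type*} [Field Fk] [Algebra (IsLocalRing.ResidueField A) Fk]

local notation "k" => IsLocalRing.ResidueField A

/-- `σ` preserves the valuation of `A` and the valuation ring of `V`. -/
structure Preserves (V : S18lib.GaussDatum A F Fk) (σ : SemilinearAut L F) : Prop where
  base_div_mem : ∀ c : L, c ≠ 0 → SemilinearAut.baseAut σ c / c ∈ A
  mem : ∀ y : F, σ • y ∈ V.O ↔ y ∈ V.O

/-- `σ` and `σ'` induce the same map on the residue field. -/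
def SameRed (V : S18lib.GaussDatum A F Fk) (σ σ' : SemilinearAut L F) : Prop :=
  ∀ y ∈ V.O, V.redF (σ • y) = V.redF (σ' • y)

/-- `σ` fixes the constants of the residue field. -/
def FixesConst (V : S18lib.GaussDatum A F Fk) (σ : SemilinearAut L F) : Prop :=
  ∀ y ∈ V.O, ∀ b : k, V.redF y = algebraMap k Fk b → V.redF (σ • y) = algebraMap k Fk b

/-- `h = κ v`, `κ` a nonzero constant, `red v = 1`. -/
def IsConstLike (V : S18lib.GaussDatum A F Fk) (h : F) : Prop :=
  ∃ κ : L, κ ≠ 0 ∧ ∃ v : F, V.redF v = 1 ∧ h = algebraMap L F κ * v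

/-- `h = κ v`, `κ` a unit of `A`, `red v = 1`. -/
def IsUnitConst (V : S18lib.GaussDatum A F Fk) (h : F) : Prop :=
  ∃ κ : L, κ ∈ A ∧ κ⁻¹ ∈ A ∧ κ ≠ 0 ∧ ∃ v : F, V.redF v = 1 ∧ h = algebraMap L F κ * v

variable {V : S18lib.GaussDatum A F Fk}

theorem IsUnitConst.isConstLike {h : F} (hh : IsUnitConst V h) : IsConstLike V h := by
  obtain ⟨κ, -, -, hκ, v, hv, rfl⟩ := hh
  exact ⟨κ, hκ, v, hv, rfl⟩

theorem mem_of_redF_eq_one {v : F} (hv : V.redF v = 1) : v ∈ V.O :=
  V.mem_of_redF_ne_zero (by rw [hv]; exact one_ne_zero)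

/-- a unit-constant function lies in `O` and reduces to a nonzero constant -/
theorem IsUnitConst.redF_eq {h : F} (hh : IsUnitConst V h) :
    ∃ b : k, b ≠ 0 ∧ V.redF h = algebraMap k Fk b := by
  obtain ⟨κ, hκA, hκA', hκ, v, hv, rfl⟩ := hh
  have hvO : v ∈ V.O := mem_of_redF_eq_one hv
  refine ⟨IsLocalRing.residue A ⟨κ, hκA⟩, ?_, ?_⟩
  · intro h0
    have h1 : (⟨κ, hκA⟩ : A) * ⟨κ⁻¹, hκA'⟩ = 1 := by
      apply Subtype.ext
      show κ * κ⁻¹ = 1
      exact mul_inv_cancel₀ hκ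
    have h2 := congrArg (IsLocalRing.residue A) h1
    rw [map_mul, h0, zero_mul, map_one] at h2
    exact zero_ne_one h2
  · have := V.redF_smul ⟨κ, hκA⟩ hvO
    rw [this, hv, Algebra.smul_def, mul_one]

theorem IsUnitConst.ne_zero {h : F} (hh : IsUnitConst V h) : h ≠ 0 := by
  obtain ⟨b, hb, hred⟩ := hh.redF_eq
  intro h0
  rw [h0, V.redF_zero] at hred
  exact hb ((map_eq_zero _).1 hred.symm)

namespace Preserves

variable {σ : SemilinearAut L F} (hσ : Preserves V σ)

include hσ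

theorem inv_div_mem {c : L} (hc : c ≠ 0) : c / SemilinearAut.baseAut σ c ∈ A := by
  have := hσ.base_div_mem c⁻¹ (inv_ne_zero hc)
  rwa [map_inv₀, inv_div_inv] at this

theorem smul_unit_ne {w : F} (hw : V.redF w ≠ 0) : V.redF (σ • w) ≠ 0 := by
  have hwO : w ∈ V.O := V.mem_of_redF_ne_zero hw
  have hwi : w⁻¹ ∈ V.O := V.inv_mem_of_redF_ne_zero hw
  have hw0 : w ≠ 0 := by
    rintro rfl
    exact hw V.redF_zero
  have h1 : σ • w ∈ V.O := (hσ.mem w).2 hwO
  have h2 : σ • w⁻¹ ∈ V.O := (hσ.mem w⁻¹).2 hwi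
  have h3 : σ • w * σ • w⁻¹ = 1 := by
    rw [← smul_mul', mul_inv_cancel₀ hw0, smul_one]
  intro h0
  have h4 := congrArg V.redF h3
  rw [V.redF_mul h1 h2, h0, zero_mul, V.redF_one] at h4
  exact zero_ne_one h4

end Preserves

/-- the quotient of the two base actions on a nonzero constant is a unit of `A` -/
theorem base_ratio_unit {σ σ' : SemilinearAut L F} (hσ : Preserves V σ) (hσ' : Preserves V σ')
    {c : L} (hc : c ≠ 0) :
    SemilinearAut.baseAut σ c / SemilinearAut.baseAut σ' c ∈ A ∧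
      (SemilinearAut.baseAut σ c / SemilinearAut.baseAut σ' c)⁻¹ ∈ A ∧
      SemilinearAut.baseAut σ c / SemilinearAut.baseAut σ' c ≠ 0 := by
  have h1 := hσ.base_div_mem c hc
  have h2 := hσ'.inv_div_mem hc
  have h3 := hσ'.base_div_mem c hc
  have h4 := hσ.inv_div_mem hc
  have hσc : SemilinearAut.baseAut σ c ≠ 0 := (map_ne_zero _).2 hc
  have hσ'c : SemilinearAut.baseAut σ' c ≠ 0 := (map_ne_zero _).2 hc
  refine ⟨?_, ?_, div_ne_zero hσc hσ'c⟩
  · have : SemilinearAut.baseAut σ c / SemilinearAut.baseAut σ' c =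
        (SemilinearAut.baseAut σ c / c) * (c / SemilinearAut.baseAut σ' c) := by
      field_simp
    rw [this]
    exact A.mul_mem _ _ h1 h2
  · have : (SemilinearAut.baseAut σ c / SemilinearAut.baseAut σ' c)⁻¹ =
        (SemilinearAut.baseAut σ' c / c) * (c / SemilinearAut.baseAut σ c) := by
      field_simp
    rw [this]
    exact A.mul_mem _ _ h3 h4

/-- **Lemma 1.** If `σ` and `σ'` induce the same map on the residue field, `σ f / σ' f` is
unit-constant for every `f ≠ 0`. -/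
theorem SameRed.isUnitConst {σ σ' : SemilinearAut L F} (hσ : Preserves V σ)
    (hσ' : Preserves V σ') (h : SameRed V σ σ') {f : F} (hf : f ≠ 0) :
    IsUnitConst V (σ • f * (σ' • f)⁻¹) := by
  obtain ⟨c, hc, w, hw⟩ := V.exists_const_mul_isUnit f hf
  set wF : F := ((w : V.O) : F) with hwF
  have hwO : wF ∈ V.O := (w : V.O).2
  have hwne : V.redF wF ≠ 0 := V.redF_ne_zero_iff.2 ⟨w, rfl⟩
  have hcF : algebraMap L F c ≠ 0 := (map_ne_zero _).2 hc
  have hf' : f = (algebraMap L F c)⁻¹ * wF := by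
    rw [← hw, ← mul_assoc, inv_mul_cancel₀ hcF, one_mul]
  obtain ⟨hκ1, hκ2, hκ0⟩ := base_ratio_unit hσ' hσ hc
  set κ : L := SemilinearAut.baseAut σ' c / SemilinearAut.baseAut σ c with hκ
  have hσw : V.redF (σ • wF) ≠ 0 := hσ.smul_unit_ne hwne
  have hσ'w : V.redF (σ' • wF) ≠ 0 := hσ'.smul_unit_ne hwne
  have hσwO : σ • wF ∈ V.O := (hσ.mem wF).2 hwO
  have hσ'wi : (σ' • wF)⁻¹ ∈ V.O := V.inv_mem_of_redF_ne_zero hσ'w
  refine ⟨κ, hκ1, hκ2, hκ0, σ • wF * (σ' • wF)⁻¹, ?_, ?_⟩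
  · rw [V.redF_mul hσwO hσ'wi, V.redF_inv hσ'w, h wF hwO, mul_inv_cancel₀ hσ'w]
  · have hσc : SemilinearAut.baseAut σ c ≠ 0 := (map_ne_zero _).2 hc
    have hσ'c : SemilinearAut.baseAut σ' c ≠ 0 := (map_ne_zero _).2 hc
    have e1 : σ • f = (algebraMap L F (SemilinearAut.baseAut σ c))⁻¹ * σ • wF := by
      rw [hf', smul_mul', smul_inv'', SemilinearAut.smul_algebraMap]
    have e2 : σ' • f = (algebraMap L F (SemilinearAut.baseAut σ' c))⁻¹ * σ' • wF := by
      rw [hf', smul_mul', smul_inv'', SemilinearAut.smul_algebraMap]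
    have hσ'w0 : σ' • wF ≠ 0 := by
      intro h0
      rw [h0, V.redF_zero] at hσ'w
      exact hσ'w rfl
    rw [e1, e2, hκ, map_div₀]
    have h1 : algebraMap L F (SemilinearAut.baseAut σ c) ≠ 0 := (map_ne_zero _).2 hσc
    have h2 : algebraMap L F (SemilinearAut.baseAut σ' c) ≠ 0 := (map_ne_zero _).2 hσ'c
    field_simp

/-- **Lemma 2.** If `h` is constant-like and `σ, σ'` fix the constants of the residue field,
`σ h / σ' h` is unit-constant. -/
theorem IsConstLike.isUnitConst {σ σ' : SemilinearAut L F} (hσ : Preserves V σ)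
    (hσ' : Preserves V σ') (hc : FixesConst V σ) (hc' : FixesConst V σ') {h : F}
    (hh : IsConstLike V h) : IsUnitConst V (σ • h * (σ' • h)⁻¹) := by
  obtain ⟨κ, hκ, v, hv, rfl⟩ := hh
  have hvO : v ∈ V.O := mem_of_redF_eq_one hv
  have hv1 : V.redF v = algebraMap k Fk 1 := by rw [hv, map_one]
  have hσv : V.redF (σ • v) = 1 := by rw [hc v hvO 1 hv1, map_one]
  have hσ'v : V.redF (σ' • v) = 1 := by rw [hc' v hvO 1 hv1, map_one]
  have hσ'vne : V.redF (σ' • v) ≠ 0 := by rw [hσ'v]; exact one_ne_zero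
  obtain ⟨hκ1, hκ2, hκ0⟩ := base_ratio_unit hσ hσ' hκ
  refine ⟨_, hκ1, hκ2, hκ0, σ • v * (σ' • v)⁻¹, ?_, ?_⟩
  · rw [V.redF_mul (mem_of_redF_eq_one hσv) (V.inv_mem_of_redF_ne_zero hσ'vne),
      V.redF_inv hσ'vne, hσv, hσ'v, inv_one, mul_one]
  · have hσ'v0 : σ' • v ≠ 0 := by
      intro h0
      rw [h0, V.redF_zero] at hσ'vne
      exact hσ'vne rfl
    have h1 : algebraMap L F (SemilinearAut.baseAut σ κ) ≠ 0 :=
      (map_ne_zero _).2 ((map_ne_zero _).2 hκ)
    have h2 : algebraMap L F (SemilinearAut.baseAut σ' κ) ≠ 0 :=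
      (map_ne_zero _).2 ((map_ne_zero _).2 hκ)
    rw [smul_mul', smul_mul', SemilinearAut.smul_algebraMap, SemilinearAut.smul_algebraMap,
      map_div₀]
    field_simp

end Fermat.Agent.S43lib.LGC.Abs
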