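/-
Project H (S43) / LGC / Abs / NodeInertial   (helper9)

A generalisation of LSb's `(U)` (LSb/Core/{Kummer1,Kummer2,Unipotent}) from INERTIAL automorphisms
(trivial on both residue fields) to NODE-INERTIAL ones: semilinear automorphisms `σ` of `F / L`
which preserve the valuation of `A`, both valuation rings and both chart divisors, fix the
CONSTANTS of both residue fields and fix the VALUE AT EVERY NODE of (the reduction of) every
function.  Examples in the modular instance `F = F_H`: the elements of the inertia group (trivial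
on the first residue field, a deck transformation of the Igusa cover on the second; the nodes =
supersingular points are totally ramified, hence fixed), the diamond automorphisms, and all their
products.

* `IsNodeInertial.toric_fixed`: for a node-inertial `σ` and a Kummer unit `u`,
  `σ u / u = c hⁿ` (the classes of Kummer units = the toric part are FIXED by `σ`);
* `isKummerUnit_pair`: for `a b` preserving both valuations and fixing the constants, and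
  `h ∈ Fˣ` with divisor divisible by `n` such that on EACH component either `a` and `b` induce the
  same map on the residue field or `h` is constant-like, `a h / b h` is a Kummer unit;
* `toric_of_pair` (divisor form): then `γ (a H - b H) - (a H - b H)` is principal for every
  node-inertial `γ`, where `n H = div h`.
-/
import Fermat.Agent.S43lib.LGC.Abs.ConstLike

set_option autoImplicit false

noncomputable section

namespace Fermat.Agent.S43lib.LGC.Abs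

open AlgebraicCurve Module Fermat.Agent Fermat.Agent.LSb

variable {L : Type*} [Field L] {A : ValuationSubring L}
variable {F : Type*} [Field F] [Algebra L F]
variable {F₁ F₂ : Type*} [Field F₁] [Field F₂]
variable [Algebra (IsLocalRing.ResidueField A) F₁] [Algebra (IsLocalRing.ResidueField A) F₂]

local notation "k" => IsLocalRing.ResidueField A

/-- A semilinear automorphism acting like an inertia element TWISTED by automorphisms of the two
components which fix the nodes. -/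
structure IsNodeInertial (D : NodalDatum A F F₁ F₂) (σ : SemilinearAut L F) : Prop where
  pres₁ : Preserves D.V₁ σ
  pres₂ : Preserves D.V₂ σ
  const₁ : FixesConst D.V₁ σ
  const₂ : FixesConst D.V₂ σ
  /-- the value at a node of a reduction which is regular there is unchanged -/
  node₁ : ∀ y ∈ D.V₁.O, ∀ c, D.V₁.redF y ∈ (D.x₁ c).toValuationSubring →
    D.V₁.redF (σ • y) ∈ (D.x₁ c).toValuationSubring ∧
      Core.valAt (D.x₁ c) (D.V₁.redF (σ • y)) = Core.valAt (D.x₁ c) (D.V₁.redF y)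
  node₂ : ∀ y ∈ D.V₂.O, ∀ c, D.V₂.redF y ∈ (D.x₂ c).toValuationSubring →
    D.V₂.redF (σ • y) ∈ (D.x₂ c).toValuationSubring ∧
      Core.valAt (D.x₂ c) (D.V₂.redF (σ • y)) = Core.valAt (D.x₂ c) (D.V₂.redF y)
  smul_P₁ : σ • D.P₁ = D.P₁
  smul_P₂ : σ • D.P₂ = D.P₂

/-- an inertial automorphism (LSb) is node-inertial -/
theorem IsNodeInertial.of_isInertial {D : NodalDatum A F F₁ F₂} {σ : SemilinearAut L F}
    (hσ : D.IsInertial σ) : IsNodeInertial D σ where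
  pres₁ := ⟨hσ.base_div_mem, hσ.mem₁⟩
  pres₂ := ⟨hσ.base_div_mem, hσ.mem₂⟩
  const₁ := fun y hy b hb => by rw [hσ.red₁ y hy, hb]
  const₂ := fun y hy b hb => by rw [hσ.red₂ y hy, hb]
  node₁ := fun y hy c hc => by rw [hσ.red₁ y hy]; exact ⟨hc, rfl⟩
  node₂ := fun y hy c hc => by rw [hσ.red₂ y hy]; exact ⟨hc, rfl⟩
  smul_P₁ := hσ.smul_P₁
  smul_P₂ := hσ.smul_P₂

namespace IsNodeInertial

variable {D : NodalDatum A F F₁ F₂} {σ : SemilinearAut L F} (hσ : IsNodeInertial D σ)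

include hσ

theorem smul_chartDiv (a b : ℤ) : σ • D.chartDiv a b = D.chartDiv a b := by
  rw [NodalDatum.chartDiv, smul_add, S37lib.B3.smul_zsmul_divisor, S37lib.B3.smul_zsmul_divisor,
    hσ.smul_P₁, hσ.smul_P₂]

/-- `σ` preserves the chart spaces -/
theorem smul_mem_rr {n : ℤ} {a b : ℤ} {f : F}
    (hf : f ∈ riemannRochSpace (n • D.chartDiv a b)) :
    σ • f ∈ riemannRochSpace (n • D.chartDiv a b) := by
  have := S37lib.B3.smul_mem_riemannRochSpace σ hf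
  rwa [S37lib.B3.smul_zsmul_divisor, hσ.smul_chartDiv] at this

/-- `σ u / u` is a Kummer unit reducing to `(1, 1)` -/
theorem isKummerUnit_div {n : ℕ} {u : F} (hu : IsKummerUnit D n u) :
    IsKummerUnit D n (σ • u * u⁻¹) ∧ D.V₁.redF (σ • u * u⁻¹) = 1 ∧
      D.V₂.redF (σ • u * u⁻¹) = 1 := by
  have hσu0 : σ • u ≠ 0 := by
    rw [SemilinearAut.smul_def]
    exact (map_ne_zero _).2 hu.ne_zero
  obtain ⟨b₁, hb₁0, hb₁⟩ := hu.red₁
  obtain ⟨b₂, hb₂0, hb₂⟩ := hu.red₂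
  have hne₁ : D.V₁.redF u ≠ 0 := by rw [hb₁]; exact (map_ne_zero _).2 hb₁0
  have hne₂ : D.V₂.redF u ≠ 0 := by rw [hb₂]; exact (map_ne_zero _).2 hb₂0
  have h1 : D.V₁.redF (σ • u * u⁻¹) = 1 := by
    rw [D.V₁.redF_mul ((hσ.pres₁.mem u).2 hu.mem₁) (D.V₁.inv_mem_of_redF_ne_zero hne₁),
      hσ.const₁ u hu.mem₁ b₁ hb₁, D.V₁.redF_inv hne₁, hb₁, mul_inv_cancel₀]
    exact (map_ne_zero _).2 hb₁0
  have h2 : D.V₂.redF (σ • u * u⁻¹) = 1 := by
    rw [D.V₂.redF_mul ((hσ.pres₂.mem u).2 hu.mem₂) (D.V₂.inv_mem_of_redF_ne_zero hne₂),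
      hσ.const₂ u hu.mem₂ b₂ hb₂, D.V₂.redF_inv hne₂, hb₂, mul_inv_cancel₀]
    exact (map_ne_zero _).2 hb₂0
  refine ⟨⟨mul_ne_zero hσu0 (inv_ne_zero hu.ne_zero), fun P => ?_, ⟨1, one_ne_zero, ?_⟩,
    ⟨1, one_ne_zero, ?_⟩⟩, h1, h2⟩
  · rw [P.ord_mul hσu0 (inv_ne_zero hu.ne_zero), P.ord_inv, NodalDatum.IsInertial.ord_smul_eq]
    exact dvd_sub (hu.dvd_ord _) (hu.dvd_ord _)
  · rw [h1, map_one]
  · rw [h2, map_one]

end IsNodeInertial

namespace NodalCtxN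

variable {D : NodalDatum A F F₁ F₂} {g g₁ g₂ : ℕ} (C : NodalCtx D g g₁ g₂)

include C

/-- **(β2) generalised**: the twist of `z = σ u / u` is trivial for a node-inertial `σ`. -/
theorem twist_eq_one {σ : SemilinearAut L F} (hσ : IsNodeInertial D σ) {n : ℕ} (hn : 0 < n)
    {u : F} (hu : IsKummerUnit D n u) :
    (∀ a b : ℕ, ∀ h ∈ D.KLat n (σ • u * u⁻¹) a b,
      D.redF h ∈ Core.nodalSpace D.x₁ D.x₂ 1 (D.chartDiv₁ a b) (D.chartDiv₂ a b)) ∧
    (∀ a b : ℕ, D.Stable g₁ g₂ a b →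
      ∀ φ ∈ Core.nodalSpace D.x₁ D.x₂ 1 (D.chartDiv₁ a b) (D.chartDiv₂ a b),
        ∃ h ∈ D.KLat n (σ • u * u⁻¹) a b, D.redF h = φ) := by
  obtain ⟨hz, -, -⟩ := hσ.isKummerUnit_div hu
  obtain ⟨lamu, -, -, Hequ⟩ := C.exists_twist_all hn hu
  obtain ⟨lamv, -, -, Heqv⟩ := C.exists_twist_all hn hu.inv
  obtain ⟨lamz, -, Hsubz, Heqz⟩ := C.exists_twist_all hn hz
  suffices hlam : lamz = 1 by
    rw [hlam] at Hsubz Heqz
    exact ⟨Hsubz, Heqz⟩
  funext c
  set m : ℕ := 2 * g₁ + 2 * g₂ + D.s with hm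
  have hst : D.Stable g₁ g₂ (m : ℕ) (0 : ℕ) :=
    C.stable_of_le_fst (by rw [hm]; push_cast; exact le_rfl) (by simp)
  -- the two generic sections
  obtain ⟨φ, hφ, hφval⟩ := Core.exists_mem_nodalSpace_valAt C.hF₁ C.hF₂ C.x₁_injective
    C.x₂_injective lamu (D.chartDiv₁ m (0 : ℕ)) (D.chartDiv₂ m (0 : ℕ)) (C.chartDiv₁_x₁ _ _)
    (C.chartDiv₂_x₂ _ _) hst.1 hst.2 (fun _ => 1)
  obtain ⟨φ', hφ', hφ'val⟩ := Core.exists_mem_nodalSpace_valAt C.hF₁ C.hF₂ C.x₁_injective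
    C.x₂_injective lamv (D.chartDiv₁ m (0 : ℕ)) (D.chartDiv₂ m (0 : ℕ)) (C.chartDiv₁_x₁ _ _)
    (C.chartDiv₂_x₂ _ _) hst.1 hst.2 (fun _ => 1)
  obtain ⟨h, hh, hhφ⟩ := Hequ m 0 hst φ hφ
  obtain ⟨h', hh', hh'φ⟩ := Heqv m 0 hst φ' hφ'
  -- regularity at the node `c`
  have r1 : φ.1 ∈ (D.x₁ c).toValuationSubring :=
    Core.mem_of_mem_rr (C.chartDiv₁_x₁ _ _ c).le hφ.1
  have r2 : φ.2 ∈ (D.x₂ c).toValuationSubring :=
    Core.mem_of_mem_rr (C.chartDiv₂_x₂ _ _ c).le hφ.2.1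
  have r1' : φ'.1 ∈ (D.x₁ c).toValuationSubring :=
    Core.mem_of_mem_rr (C.chartDiv₁_x₁ _ _ c).le hφ'.1
  have r2' : φ'.2 ∈ (D.x₂ c).toValuationSubring :=
    Core.mem_of_mem_rr (C.chartDiv₂_x₂ _ _ c).le hφ'.2.1
  have hO := NodalDatum.mem_O.1 hh.1
  have hO' := NodalDatum.mem_O.1 hh'.1
  have e1 : D.V₁.redF h = φ.1 := congrArg Prod.fst hhφ
  have e2 : D.V₂.redF h = φ.2 := congrArg Prod.snd hhφ
  have e1' : D.V₁.redF h' = φ'.1 := congrArg Prod.fst hh'φ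
  have e2' : D.V₂.redF h' = φ'.2 := congrArg Prod.snd hh'φ
  -- the chart divisor `2m P₁`
  have hadd : (n : ℤ) • D.chartDiv (m : ℕ) (0 : ℕ) + (n : ℤ) • D.chartDiv (m : ℕ) (0 : ℕ) =
      (n : ℤ) • D.chartDiv ((2 * m : ℕ) : ℕ) (0 : ℕ) := by
    rw [← smul_add]
    congr 1
    ext P
    rw [Finsupp.add_apply, D.chartDiv_apply, D.chartDiv_apply]
    push_cast
    ring
  -- `h h'` is glued untwisted
  have hp : (h * h') ∈ riemannRochSpace (D.chartDiv ((2 * m : ℕ) : ℕ) (0 : ℕ)) := by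
    have h1 := S18lib.Cech.mul_mem_rr hh.2 hh'.2
    rw [hadd] at h1
    have e : h ^ n * u * (h' ^ n * u⁻¹) = (h * h') ^ n * 1 := by
      rw [mul_pow]
      field_simp [hu.ne_zero]
    rw [e, pow_mul_mem_rr_iff hn one_ne_zero (E := 0) (fun P => by simp), zero_add] at h1
    exact h1
  obtain ⟨α, hα1, hα2⟩ := C.glue (2 * m) 0 (h * h') hp (D.V₁.O.mul_mem _ _ hO.1 hO'.1)
    (D.V₂.O.mul_mem _ _ hO.2 hO'.2) c
  have v1 : Core.valAt (D.x₁ c) (D.V₁.redF (h * h')) = α :=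
    Core.valAt_eq_of_vanishAt (show Core.VanishAt _ _ from hα1)
  have v2 : Core.valAt (D.x₂ c) (D.V₂.redF (h * h')) = α :=
    Core.valAt_eq_of_vanishAt (show Core.VanishAt _ _ from hα2)
  rw [D.V₁.redF_mul hO.1 hO'.1, e1, e1', Core.valAt_mul _ (C.hF₁.deg_eq_one _) r1 r1',
    (hφval c).1, (hφ'val c).1, one_mul] at v1
  rw [D.V₂.redF_mul hO.2 hO'.2, e2, e2', ← v1] at v2
  -- the element `t = σ(h) h'` of `KLat n z (2m) 0`
  have hσO₁ : σ • h ∈ D.V₁.O := (hσ.pres₁.mem h).2 hO.1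
  have hσO₂ : σ • h ∈ D.V₂.O := (hσ.pres₂.mem h).2 hO.2
  have ht : σ • h * h' ∈ D.KLat n (σ • u * u⁻¹) ((2 * m : ℕ) : ℕ) (0 : ℕ) := by
    refine ⟨NodalDatum.mem_O.2 ⟨D.V₁.O.mul_mem _ _ hσO₁ hO'.1, D.V₂.O.mul_mem _ _ hσO₂ hO'.2⟩, ?_⟩
    have h1 := S18lib.Cech.mul_mem_rr (hσ.smul_mem_rr hh.2) hh'.2
    rw [hadd] at h1
    have e : σ • (h ^ n * u) * (h' ^ n * u⁻¹) = (σ • h * h') ^ n * (σ • u * u⁻¹) := by
      rw [smul_mul', smul_pow', mul_pow]
      ring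
    rwa [e] at h1
  have hred := Hsubz (2 * m) 0 _ ht
  have h3 := ((Core.gluedAt_iff C.hF₁.deg_eq_one C.hF₂.deg_eq_one c _ _).1 (hred.2.2 c)).2.2
  -- the values at the node of the reductions of `σ h`
  obtain ⟨s1, w1⟩ := hσ.node₁ h hO.1 c (by rw [e1]; exact r1)
  obtain ⟨s2, w2⟩ := hσ.node₂ h hO.2 c (by rw [e2]; exact r2)
  rw [e1] at w1
  rw [e2] at w2
  have f1 : (D.redF (σ • h * h')).1 = D.V₁.redF (σ • h) * φ'.1 := by
    show D.V₁.redF (σ • h * h') = _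
    rw [D.V₁.redF_mul hσO₁ hO'.1, e1']
  have f2 : (D.redF (σ • h * h')).2 = D.V₂.redF (σ • h) * φ'.2 := by
    show D.V₂.redF (σ • h * h') = _
    rw [D.V₂.redF_mul hσO₂ hO'.2, e2']
  rw [f1, f2, Core.valAt_mul _ (C.hF₁.deg_eq_one _) s1 r1',
    Core.valAt_mul _ (C.hF₂.deg_eq_one _) s2 r2', w1, w2,
    ← Core.valAt_mul _ (C.hF₂.deg_eq_one _) r2 r2', v2, (hφval c).1, (hφ'val c).1] at h3
  simpa using h3.symm

/-- **toric classes are fixed**: for a node-inertial `σ` and a Kummer unit `u`,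
`σ u / u` is a constant times an `n`-th power. -/
theorem toric_fixed {σ : SemilinearAut L F} (hσ : IsNodeInertial D σ) {n : ℕ}
    (hn : (n : k) ≠ 0) {u : F} (hu : IsKummerUnit D n u) :
    ∃ (h : F) (c : L), h ≠ 0 ∧ c ≠ 0 ∧ σ • u * u⁻¹ = algebraMap L F c * h ^ n := by
  have hn0 : n ≠ 0 := by
    rintro rfl
    exact hn (by simp)
  have hnpos : 0 < n := Nat.pos_of_ne_zero hn0
  obtain ⟨hKz, hz₁, hz₂⟩ := hσ.isKummerUnit_div hu
  obtain ⟨Hsub, -⟩ := twist_eq_one C hσ hnpos hu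
  exact cech_core C n hn _ hKz hz₁ hz₂ Hsub

end NodalCtxN

end Fermat.Agent.S43lib.LGC.Abs
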