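/-
Project H (S43) / LGC / Abs / Toric   (helper9)

The PAIR theorem and its two consumers.

For a nodal datum `D` with `NodalCtx`, node-inertial `a b γ`, `n` invertible in the residue field,
and `h ∈ Fˣ` with `div h = n H` such that on EACH component either `a` and `b` induce the same map on
the residue field or `h` is constant-like:

* `isKummerUnit_pair` : `a h / b h` is a Kummer unit;
* `toric_of_pair`     : `γ (a H - b H) - (a H - b H)` is principal;
* `pic0_toric_of_pair`: `γ (a [H] - b [H]) = a [H] - b [H]` in `Pic⁰(F)`.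

Consumers:
* `pic0_word`  (WORDS IN THE GROUP RING): for `x ∈ Pic⁰(F)[n]` and node-inertial `a b c e γ` such
  that on each component `a ~ b` or `c ~ e`:  `(γ - 1)(a - b)(c - e) x = 0`.
  Modular instance (`t, t' ∈ I`, `d = cyc t`, `⟨d'⟩` any diamond):
  `(⟨d'⟩ - 1)(t' - 1)(t - ⟨d⟩) x = 0` and `(⟨d'⟩ - 1)(t - ⟨d⟩)(t' - 1) x = 0`.
* `pic0_frob`  (FROBENIUS AND `U_q`): if `n D₀ = div f`, `n E₀ = div f'` (`f' = ` the norm-type
  image of `f` under `U_q`, `E₀ = U_q D₀`) and `φ f / f'` is constant-like on the FIRST component,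
  and `a ~ b` on the SECOND component: `(γ - 1)(a - b)(φ [D₀] - [E₀]) = 0`.
  Modular instance: `(⟨d'⟩ - 1)(t - ⟨d⟩)(φ - U_q) x = 0`.
-/
import Fermat.Agent.S43lib.LGC.Abs.NodeInertial

set_option autoImplicit false

noncomputable section

namespace Fermat.Agent.S43lib.LGC.Abs

open AlgebraicCurve Module Fermat.Agent Fermat.Agent.LSb

variable {L : Type*} [Field L] {A : ValuationSubring L}
variable {F : Type*} [Field F] [Algebra L F]
variable {F₁ F₂ : Type*} [Field F₁] [Field F₂]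
variable [Algebra (IsLocalRing.ResidueField A) F₁] [Algebra (IsLocalRing.ResidueField A) F₂]

local notation "k" => IsLocalRing.ResidueField A

variable {D : NodalDatum A F F₁ F₂}

theorem smul_ne_zero' (σ : SemilinearAut L F) {f : F} (hf : f ≠ 0) : σ • f ≠ 0 := by
  rw [SemilinearAut.smul_def]
  exact (map_ne_zero _).2 hf

/-- the order of `σ f` in terms of the translated divisor -/
theorem ord_smul_of_div (σ : SemilinearAut L F) {n : ℕ} {f : F} {H : Divisor L F}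
    (hH : ∀ P : Place L F, P.ord f = (n : ℤ) * H P) (P : Place L F) :
    P.ord (σ • f) = (n : ℤ) * (σ • H) P := by
  rw [NodalDatum.IsInertial.ord_smul_eq, hH, SemilinearAut.divisor_smul_apply]

/-- the order of a quotient `f / f'` -/
theorem ord_div_of_div {n : ℕ} {f f' : F} (hf : f ≠ 0) (hf' : f' ≠ 0) {H H' : Divisor L F}
    (hH : ∀ P : Place L F, P.ord f = (n : ℤ) * H P)
    (hH' : ∀ P : Place L F, P.ord f' = (n : ℤ) * H' P) (P : Place L F) :
    P.ord (f * f'⁻¹) = (n : ℤ) * (H - H') P := by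
  rw [P.ord_mul hf (inv_ne_zero hf'), P.ord_inv, hH, hH', Finsupp.sub_apply]
  ring

/-- **the Kummer unit of a pair** -/
theorem isKummerUnit_pair {a b : SemilinearAut L F} (ha : IsNodeInertial D a)
    (hb : IsNodeInertial D b) {n : ℕ} {h : F} (hh : h ≠ 0)
    (hdvd : ∀ P : Place L F, (n : ℤ) ∣ P.ord h)
    (h₁ : SameRed D.V₁ a b ∨ IsConstLike D.V₁ h) (h₂ : SameRed D.V₂ a b ∨ IsConstLike D.V₂ h) :
    IsKummerUnit D n (a • h * (b • h)⁻¹) := by
  have hah : a • h ≠ 0 := smul_ne_zero' a hh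
  have hbh : b • h ≠ 0 := smul_ne_zero' b hh
  have u₁ : IsUnitConst D.V₁ (a • h * (b • h)⁻¹) := by
    rcases h₁ with h₁ | h₁
    · exact h₁.isUnitConst ha.pres₁ hb.pres₁ hh
    · exact h₁.isUnitConst ha.pres₁ hb.pres₁ ha.const₁ hb.const₁
  have u₂ : IsUnitConst D.V₂ (a • h * (b • h)⁻¹) := by
    rcases h₂ with h₂ | h₂
    · exact h₂.isUnitConst ha.pres₂ hb.pres₂ hh
    · exact h₂.isUnitConst ha.pres₂ hb.pres₂ ha.const₂ hb.const₂
  refine ⟨mul_ne_zero hah (inv_ne_zero hbh), fun P => ?_, u₁.redF_eq, u₂.redF_eq⟩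
  rw [P.ord_mul hah (inv_ne_zero hbh), P.ord_inv, NodalDatum.IsInertial.ord_smul_eq,
    NodalDatum.IsInertial.ord_smul_eq]
  exact dvd_sub (hdvd _) (hdvd _)

variable {g g₁ g₂ : ℕ}

/-- **the pair theorem, divisor form** -/
theorem toric_of_pair (C : NodalCtx D g g₁ g₂) {a b γ : SemilinearAut L F}
    (ha : IsNodeInertial D a) (hb : IsNodeInertial D b) (hγ : IsNodeInertial D γ) {n : ℕ}
    (hn : (n : k) ≠ 0) {h : F} (hh : h ≠ 0) {H : Divisor L F}
    (hH : ∀ P : Place L F, P.ord h = (n : ℤ) * H P)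
    (h₁ : SameRed D.V₁ a b ∨ IsConstLike D.V₁ h) (h₂ : SameRed D.V₂ a b ∨ IsConstLike D.V₂ h) :
    γ • (a • H - b • H) - (a • H - b • H) ∈ Divisor.principal (K := L) (F := F) := by
  have hn0 : n ≠ 0 := by
    rintro rfl
    exact hn (by simp)
  have hnZ : (n : ℤ) ≠ 0 := by exact_mod_cast hn0
  have hu : IsKummerUnit D n (a • h * (b • h)⁻¹) :=
    isKummerUnit_pair ha hb hh (fun P => ⟨H P, hH P⟩) h₁ h₂
  set u : F := a • h * (b • h)⁻¹ with hudef
  set E : Divisor L F := a • H - b • H with hE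
  have hudiv : ∀ P : Place L F, P.ord u = (n : ℤ) * E P :=
    ord_div_of_div (smul_ne_zero' a hh) (smul_ne_zero' b hh) (ord_smul_of_div a hH)
      (ord_smul_of_div b hH)
  obtain ⟨w, c, hw0, hc0, hz⟩ := NodalCtxN.toric_fixed C hγ hn hu
  have hγu0 : γ • u ≠ 0 := smul_ne_zero' γ hu.ne_zero
  refine ⟨w, hw0, fun P => ?_⟩
  have h1 : P.ord (γ • u * u⁻¹) = (n : ℤ) * P.ord w := by
    rw [hz, P.ord_mul ((map_ne_zero _).2 hc0) (pow_ne_zero n hw0), S18lib.Cech.ord_const,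
      S18lib.Cech.ord_pow, zero_add]
  rw [P.ord_mul hγu0 (inv_ne_zero hu.ne_zero), P.ord_inv, NodalDatum.IsInertial.ord_smul_eq,
    hudiv, hudiv] at h1
  rw [Finsupp.sub_apply, SemilinearAut.divisor_smul_apply]
  have h2 : (n : ℤ) * (E (γ⁻¹ • P) - E P) = (n : ℤ) * P.ord w := by
    rw [← h1]; ring
  exact mul_left_cancel₀ hnZ h2

/-- **the pair theorem on `Pic⁰`** -/
theorem pic0_toric_of_pair (C : NodalCtx D g g₁ g₂) {a b γ : SemilinearAut L F}
    (ha : IsNodeInertial D a) (hb : IsNodeInertial D b) (hγ : IsNodeInertial D γ) {n : ℕ}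
    (hn : (n : k) ≠ 0) {h : F} (hh : h ≠ 0) (H : Divisor.degZero (K := L) (F := F))
    (hH : ∀ P : Place L F, P.ord h = (n : ℤ) * (H : Divisor L F) P)
    (h₁ : SameRed D.V₁ a b ∨ IsConstLike D.V₁ h) (h₂ : SameRed D.V₂ a b ∨ IsConstLike D.V₂ h) :
    γ • (a • Pic0.mk H - b • Pic0.mk H) = a • Pic0.mk H - b • Pic0.mk H := by
  have hmain := toric_of_pair C ha hb hγ hn hh hH h₁ h₂
  set E : Divisor.degZero (K := L) (F := F) :=
    SemilinearAut.degZeroSMulHom a H - SemilinearAut.degZeroSMulHom b H with hE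
  have e1 : a • Pic0.mk H - b • Pic0.mk H = Pic0.mk E := by
    rw [SemilinearAut.pic0_smul_mk, SemilinearAut.pic0_smul_mk]
    rfl
  rw [e1, SemilinearAut.pic0_smul_mk]
  have h3 : Pic0.mk (SemilinearAut.degZeroSMulHom γ E - E) = 0 := by
    apply (QuotientAddGroup.eq_zero_iff _).2
    rw [AddSubgroup.mem_addSubgroupOf]
    rw [smul_sub] at hmain
    simpa [hE] using hmain
  have h4 : Pic0.mk (SemilinearAut.degZeroSMulHom γ E - E) =
      Pic0.mk (SemilinearAut.degZeroSMulHom γ E) - Pic0.mk E := rfl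
  rw [h4, sub_eq_zero] at h3
  exact h3

/-- a generator of `n x = 0`: `x = [D₀]`, `n D₀ = div f` -/
theorem exists_kummer_gen {n : ℕ} {x : Pic0 L F} (hx : n • x = 0) :
    ∃ (D₀ : Divisor.degZero (K := L) (F := F)) (f : F), x = Pic0.mk D₀ ∧ f ≠ 0 ∧
      ∀ P : Place L F, P.ord f = (n : ℤ) * (D₀ : Divisor L F) P := by
  obtain ⟨D₀, rfl⟩ := Pic0.mk_surjective x
  have hprinc : n • (D₀ : Divisor L F) ∈ Divisor.principal (K := L) (F := F) := by
    have h1 : Pic0.mk (n • D₀) = 0 := hx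
    have h2 := (QuotientAddGroup.eq_zero_iff _).1 h1
    rw [AddSubgroup.mem_addSubgroupOf] at h2
    simpa using h2
  obtain ⟨f, hf0, hfdiv⟩ := hprinc
  refine ⟨D₀, f, rfl, hf0, fun P => ?_⟩
  rw [← hfdiv, Finsupp.smul_apply, nsmul_eq_mul]

/-- **WORDS**: `(γ - 1)(a - b)(c - e) x = 0` on `Pic⁰(F)[n]` when on each component `a ~ b` or
`c ~ e`. -/
theorem pic0_word (C : NodalCtx D g g₁ g₂) {a b c e γ : SemilinearAut L F}
    (ha : IsNodeInertial D a) (hb : IsNodeInertial D b) (hc : IsNodeInertial D c)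
    (he : IsNodeInertial D e) (hγ : IsNodeInertial D γ) {n : ℕ} (hn : (n : k) ≠ 0)
    (h₁ : SameRed D.V₁ a b ∨ SameRed D.V₁ c e) (h₂ : SameRed D.V₂ a b ∨ SameRed D.V₂ c e)
    {x : Pic0 L F} (hx : n • x = 0) :
    γ • (a • (c • x - e • x) - b • (c • x - e • x)) = a • (c • x - e • x) - b • (c • x - e • x) := by
  obtain ⟨D₀, f, rfl, hf0, hf⟩ := exists_kummer_gen hx
  set H : Divisor.degZero (K := L) (F := F) :=
    SemilinearAut.degZeroSMulHom c D₀ - SemilinearAut.degZeroSMulHom e D₀ with hH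
  have e1 : c • Pic0.mk D₀ - e • Pic0.mk D₀ = Pic0.mk H := by
    rw [SemilinearAut.pic0_smul_mk, SemilinearAut.pic0_smul_mk]
    rfl
  rw [e1]
  have hcf : c • f ≠ 0 := smul_ne_zero' c hf0
  have hef : e • f ≠ 0 := smul_ne_zero' e hf0
  refine pic0_toric_of_pair C ha hb hγ hn (mul_ne_zero hcf (inv_ne_zero hef)) H ?_ ?_ ?_
  · intro P
    have := ord_div_of_div hcf hef (ord_smul_of_div c hf) (ord_smul_of_div e hf) P
    rw [this]
    rfl
  · rcases h₁ with h₁ | h₁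
    · exact Or.inl h₁
    · exact Or.inr (h₁.isUnitConst hc.pres₁ he.pres₁ hf0).isConstLike
  · rcases h₂ with h₂ | h₂
    · exact Or.inl h₂
    · exact Or.inr (h₂.isUnitConst hc.pres₂ he.pres₂ hf0).isConstLike

/-- **FROBENIUS AND `U_q`**: `(γ - 1)(a - b)(φ [D₀] - [E₀]) = 0` when `n D₀ = div f`,
`n E₀ = div f'`, `φ f / f'` is constant-like on the first component and `a ~ b` on the second. -/
theorem pic0_frob (C : NodalCtx D g g₁ g₂) {a b γ : SemilinearAut L F} (φ : SemilinearAut L F)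
    (ha : IsNodeInertial D a) (hb : IsNodeInertial D b) (hγ : IsNodeInertial D γ) {n : ℕ}
    (hn : (n : k) ≠ 0) {f f' : F} (hf0 : f ≠ 0) (hf'0 : f' ≠ 0)
    (D₀ E₀ : Divisor.degZero (K := L) (F := F))
    (hf : ∀ P : Place L F, P.ord f = (n : ℤ) * (D₀ : Divisor L F) P)
    (hf' : ∀ P : Place L F, P.ord f' = (n : ℤ) * (E₀ : Divisor L F) P)
    (h₁ : IsConstLike D.V₁ (φ • f * f'⁻¹)) (h₂ : SameRed D.V₂ a b) :
    γ • (a • (φ • Pic0.mk D₀ - Pic0.mk E₀) - b • (φ • Pic0.mk D₀ - Pic0.mk E₀)) =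
      a • (φ • Pic0.mk D₀ - Pic0.mk E₀) - b • (φ • Pic0.mk D₀ - Pic0.mk E₀) := by
  set H : Divisor.degZero (K := L) (F := F) := SemilinearAut.degZeroSMulHom φ D₀ - E₀ with hH
  have e1 : φ • Pic0.mk D₀ - Pic0.mk E₀ = Pic0.mk H := by
    rw [SemilinearAut.pic0_smul_mk]
    rfl
  rw [e1]
  have hφf : φ • f ≠ 0 := smul_ne_zero' φ hf0
  refine pic0_toric_of_pair C ha hb hγ hn (mul_ne_zero hφf (inv_ne_zero hf'0)) H ?_
    (Or.inr h₁) (Or.inl h₂)
  intro P
  have := ord_div_of_div hφf hf'0 (ord_smul_of_div φ hf) hf' P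
  rw [this]
  rfl

end Fermat.Agent.S43lib.LGC.Abs
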