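/-
Project H (S43) / LGC / Abs / Cover   (helper9)

**LGC-C, generic part: automorphisms of a Kummer cover of a nodal chart datum are node-inertial.**

Setting of helper2's `KC`: a Gauss datum `D₀` on `F₀ / L`, a Kummer lift
`H : KummerLift D₀ e u h ȳ` (`F = F₀[h]`, `h ^ e = u`, residue field `K = K₀[ȳ]`), the extended
Gauss datum `gaussExt H` on `F`.

* `CoverAct H σ σ₀ ζ`: a semilinear automorphism `σ` of `F / L` which restricts to `σ₀` on `F₀`,
  `σ₀` is INERTIAL for `D₀` (preserves the valuation of `A`, preserves `D₀.O`, trivial on `K₀`)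
  and `σ h = ζ h` for an `e`-th root of unity `ζ ∈ A`.
  Examples in the modular instance `F = F_H`, `F₀ = F(X₀(N))`: the elements `t` of the inertia group
  (`ζ₁ = 1` on the first component, `ζ₂ = ψ(cyc t)` on the second one) and the diamond
  automorphisms (`σ₀ = 1`, `ζ₁ = ζ₂ = ψ(d)`).
* `CoverAct.preserves`, `CoverAct.redF_smul`: then `σ` preserves `gaussExt H` and induces the deck
  transformation `deckK H ζ` on the residue field;
* `CoverAct.sameRed`: two such automorphisms with the same `ζ` induce the same map on `K`;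
* `valAt_deckK`: a deck transformation of `K / K₀` fixes the values at a totally ramified place;
* `isNodeInertial_cover`: for the chart datum of a cover (`KC.nodalCtx_cover`) such a `σ` is
  node-inertial (`Abs/NodeInertial`).
-/
import Fermat.Agent.S43lib.LGC.Abs.Toric
import Fermat.Agent.S43lib.LGC.KC.Ctx
import Fermat.Agent.LSb.Kum.Inertial

set_option autoImplicit false
set_option linter.unusedSectionVars false
set_option linter.unusedVariables false
set_option linter.style.haveILetI false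

noncomputable section

namespace Fermat.Agent.S43lib.LGC.Abs

open Polynomial AlgebraicCurve Fermat.Agent Fermat.Agent.S18lib Fermat.Agent.LSb
open Fermat.Agent.S43lib.LGC.KC

section One

variable {L : Type*} [Field L] {A : ValuationSubring L}
variable {F₀ : Type*} [Field F₀] [Algebra L F₀]
variable {K₀ : Type*} [Field K₀] [Algebra (IsLocalRing.ResidueField A) K₀]
variable {F : Type*} [Field F] [Algebra L F] [Algebra F₀ F] [IsScalarTower L F₀ F]
variable {K : Type*} [Field K] [Algebra (IsLocalRing.ResidueField A) K] [Algebra K₀ K]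
variable [IsScalarTower (IsLocalRing.ResidueField A) K₀ K]
variable {D₀ : GaussDatum A F₀ K₀} {h : F} {ybar : K} {e : ℕ} {u : F₀}

local notation "k" => IsLocalRing.ResidueField A

/-- `σ` restricts to the `D₀`-inertial `σ₀` on `F₀` and multiplies the Kummer generator by the root
of unity `ζ`. -/
structure CoverAct (H : KummerLift D₀ e u h ybar) (σ : SemilinearAut L F)
    (σ₀ : SemilinearAut L F₀) (ζ : A) : Prop where
  compat : ∀ f₀ : F₀, σ • algebraMap F₀ F f₀ = algebraMap F₀ F (σ₀ • f₀)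
  base_div_mem : ∀ c : L, c ≠ 0 → SemilinearAut.baseAut σ₀ c / c ∈ A
  mem₀ : ∀ y : F₀, σ₀ • y ∈ D₀.O ↔ y ∈ D₀.O
  red₀ : ∀ y ∈ D₀.O, D₀.redF (σ₀ • y) = D₀.redF y
  zeta_pow : ζ ^ e = 1
  gen : σ • h = algebraMap L F (ζ : L) * h

namespace CoverAct

variable {H : KummerLift D₀ e u h ybar} {σ : SemilinearAut L F} {σ₀ : SemilinearAut L F₀} {ζ : A}

/-- the base automorphisms agree -/
theorem baseAut_eq (hσ : CoverAct H σ σ₀ ζ) (c : L) :
    SemilinearAut.baseAut σ c = SemilinearAut.baseAut σ₀ c := by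
  have h1 : σ • algebraMap L F c = algebraMap L F (SemilinearAut.baseAut σ c) :=
    SemilinearAut.smul_algebraMap σ c
  have h2 : σ • algebraMap L F c = algebraMap L F (SemilinearAut.baseAut σ₀ c) := by
    rw [IsScalarTower.algebraMap_apply L F₀ F, hσ.compat, SemilinearAut.smul_algebraMap,
      ← IsScalarTower.algebraMap_apply L F₀ F]
  exact (algebraMap L F).injective (h1.symm.trans h2)

/-- the key computation: `σ (ψ p)` lies in `D₀.O[h]` and reduces to `deckK ζ (φ p)` -/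
theorem smul_psi (hσ : CoverAct H σ σ₀ ζ) (p : (D₀.O)[X]) :
    σ • psi D₀ h p ∈ (gaussExt H).O ∧
      (gaussExt H).redF (σ • psi D₀ h p) = deckK H ζ hσ.zeta_pow (phi D₀ ybar p) := by
  induction p using Polynomial.induction_on with
  | C a =>
    rw [psi_C, phi_C, hσ.compat, AlgEquiv.commutes]
    have hm : σ₀ • (a : F₀) ∈ D₀.O := (hσ.mem₀ _).2 a.2
    refine ⟨(algebraMap_mem_gaussExt_iff H _).2 hm, ?_⟩
    rw [redF_gaussExt_algebraMap, hσ.red₀ _ a.2, D₀.redF_of_mem a.2]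
  | add p q hp hq =>
    rw [map_add, map_add, smul_add, map_add]
    refine ⟨(gaussExt H).O.add_mem _ _ hp.1 hq.1, ?_⟩
    rw [(gaussExt H).redF_add hp.1 hq.1, hp.2, hq.2]
  | monomial n a ih =>
    have e1 : (C a * X ^ (n + 1) : (D₀.O)[X]) = C a * X ^ n * X := by
      rw [pow_succ, mul_assoc]
    rw [e1, map_mul (psi D₀ h) (C a * X ^ n) X, map_mul (phi D₀ ybar) (C a * X ^ n) X, psi_X,
      phi_X, smul_mul', hσ.gen, map_mul (deckK H ζ hσ.zeta_pow)]
    have hζh : algebraMap L F (ζ : L) * h ∈ (gaussExt H).O :=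
      (gaussExt H).O.mul_mem _ _ (((gaussExt H).algebraMap_mem_iff _).2 ζ.2) (gen_mem_gaussExt H)
    refine ⟨(gaussExt H).O.mul_mem _ _ ih.1 hζh, ?_⟩
    rw [(gaussExt H).redF_mul ih.1 hζh, ih.2, (gaussExt H).redF_smul ζ (gen_mem_gaussExt H),
      redF_gaussExt_gen]
    congr 1
    show _ = H.genbar.deck (zetaK ζ) (zetaK_pow hσ.zeta_pow) ybar
    rw [IsKummerGen.deck_gen, zetaK, ← IsScalarTower.algebraMap_apply, Algebra.smul_def]

/-- `σ` preserves the valuation ring `D₀.O[h]` -/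
theorem smul_mem_iff (hσ : CoverAct H σ σ₀ ζ) (x : F) :
    σ • x ∈ (gaussExt H).O ↔ x ∈ (gaussExt H).O :=
  map_mem_gaussExt_iff H (SemilinearAut.toRingAut σ) (SemilinearAut.toRingAut σ₀) hσ.compat
    hσ.mem₀ x

/-- **`σ` induces the deck transformation `ȳ ↦ ζ̄ ȳ` on the residue field** -/
theorem redF_smul (hσ : CoverAct H σ σ₀ ζ) {f : F} (hf : f ∈ (gaussExt H).O) :
    (gaussExt H).redF (σ • f) = deckK H ζ hσ.zeta_pow ((gaussExt H).redF f) := by
  obtain ⟨p, rfl⟩ := (mem_gaussExt H).1 hf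
  rw [(hσ.smul_psi p).2, redF_gaussExt_psi]

theorem preserves (hσ : CoverAct H σ σ₀ ζ) : Preserves (gaussExt H) σ where
  base_div_mem := fun c hc => by
    rw [hσ.baseAut_eq]
    exact hσ.base_div_mem c hc
  mem := hσ.smul_mem_iff

theorem fixesConst (hσ : CoverAct H σ σ₀ ζ) : FixesConst (gaussExt H) σ := by
  intro y hy b hb
  rw [hσ.redF_smul hy, hb, IsScalarTower.algebraMap_apply k K₀ K, AlgEquiv.commutes]

/-- two automorphisms with the same root of unity induce the same map on the residue field -/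
theorem sameRed (hσ : CoverAct H σ σ₀ ζ) {σ' : SemilinearAut L F} {σ₀' : SemilinearAut L F₀}
    (hσ' : CoverAct H σ' σ₀' ζ) : SameRed (gaussExt H) σ σ' := by
  intro y hy
  rw [hσ.redF_smul hy, hσ'.redF_smul hy]

/-- the identity -/
theorem one (H : KummerLift D₀ e u h ybar) : CoverAct H (1 : SemilinearAut L F)
    (1 : SemilinearAut L F₀) (1 : A) where
  compat := fun f₀ => by rw [one_smul, one_smul]
  base_div_mem := fun c hc => by
    rw [SemilinearAut.baseAut_one]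
    show c / c ∈ A
    rw [div_self hc]
    exact A.one_mem
  mem₀ := fun y => by rw [one_smul]
  red₀ := fun y _ => by rw [one_smul]
  zeta_pow := one_pow e
  gen := by
    rw [one_smul]
    show h = algebraMap L F ((1 : A) : L) * h
    rw [show ((1 : A) : L) = 1 from rfl, map_one, one_mul]

/-- an `F₀`-linear automorphism multiplying the generator by `ζ` (the diamonds) -/
theorem of_algEquiv (H : KummerLift D₀ e u h ybar) (δ : F ≃ₐ[F₀] F) (ζ : A) (hζ : ζ ^ e = 1)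
    (hδ : δ h = algebraMap L F (ζ : L) * h) :
    CoverAct H (SemilinearAut.ofAlgAut (δ.restrictScalars L)) (1 : SemilinearAut L F₀) ζ where
  compat := fun f₀ => by
    rw [one_smul, SemilinearAut.ofAlgAut_smul]
    exact δ.commutes f₀
  base_div_mem := fun c hc => by
    rw [SemilinearAut.baseAut_one]
    show c / c ∈ A
    rw [div_self hc]
    exact A.one_mem
  mem₀ := fun y => by rw [one_smul]
  red₀ := fun y _ => by rw [one_smul]
  zeta_pow := hζ
  gen := by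
    rw [SemilinearAut.ofAlgAut_smul]
    exact hδ

end CoverAct

end One

/-! ### the action on both components -/

section Pair

variable {L : Type*} [Field L] {A : ValuationSubring L}
variable {F₀ : Type*} [Field F₀] [Algebra L F₀]
variable {K₁ K₂ : Type*} [Field K₁] [Field K₂]
variable [Algebra (IsLocalRing.ResidueField A) K₁] [Algebra (IsLocalRing.ResidueField A) K₂]
variable {F : Type*} [Field F] [Algebra L F] [Algebra F₀ F] [IsScalarTower L F₀ F]
variable {K₁' K₂' : Type*} [Field K₁'] [Field K₂']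
variable [Algebra (IsLocalRing.ResidueField A) K₁'] [Algebra K₁ K₁']
variable [IsScalarTower (IsLocalRing.ResidueField A) K₁ K₁']
variable [Algebra (IsLocalRing.ResidueField A) K₂'] [Algebra K₂ K₂']
variable [IsScalarTower (IsLocalRing.ResidueField A) K₂ K₂']

variable {D1 : GaussDatum A F₀ K₁} {D2 : GaussDatum A F₀ K₂} {s : ℕ}
  {x₁ : Fin s → Place (IsLocalRing.ResidueField A) K₁}
  {x₂ : Fin s → Place (IsLocalRing.ResidueField A) K₂} {e : ℕ} {u₁ u₂ : F₀} {h₁ h₂ : F}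
  {ybar₁ : K₁'} {ybar₂ : K₂'} {y : F₀} {c₀ : A}

/-- the action on both components: `σ` restricts to a `σ₀` on `F₀` which is inertial for `D1` and
`D2`, fixes the chart coordinate and the chart constant, and `σ h_i = ζ_i h_i`. -/
def CoverAct₂ (H₁ : KummerLift D1 e u₁ h₁ ybar₁) (H₂ : KummerLift D2 e u₂ h₂ ybar₂) (y : F₀)
    (c₀ : A) (σ : SemilinearAut L F) (ζ₁ ζ₂ : A) : Prop :=
  ∃ σ₀ : SemilinearAut L F₀, CoverAct H₁ σ σ₀ ζ₁ ∧ CoverAct H₂ σ σ₀ ζ₂ ∧ σ₀ • y = y ∧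
    SemilinearAut.baseAut σ₀ (c₀ : L) = c₀

theorem CoverAct₂.one (H₁ : KummerLift D1 e u₁ h₁ ybar₁) (H₂ : KummerLift D2 e u₂ h₂ ybar₂)
    (y : F₀) (c₀ : A) : CoverAct₂ H₁ H₂ y c₀ (1 : SemilinearAut L F) 1 1 :=
  ⟨1, CoverAct.one H₁, CoverAct.one H₂, one_smul _ _, rfl⟩

/-- the diamonds -/
theorem CoverAct₂.of_algEquiv (H₁ : KummerLift D1 e u₁ h₁ ybar₁)
    (H₂ : KummerLift D2 e u₂ h₂ ybar₂) (y : F₀) (c₀ : A) (δ : F ≃ₐ[F₀] F) (ζ₁ ζ₂ : A)
    (hζ₁ : ζ₁ ^ e = 1) (hζ₂ : ζ₂ ^ e = 1) (hδ₁ : δ h₁ = algebraMap L F (ζ₁ : L) * h₁)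
    (hδ₂ : δ h₂ = algebraMap L F (ζ₂ : L) * h₂) :
    CoverAct₂ H₁ H₂ y c₀ (SemilinearAut.ofAlgAut (δ.restrictScalars L)) ζ₁ ζ₂ :=
  ⟨1, CoverAct.of_algEquiv H₁ δ ζ₁ hζ₁ hδ₁, CoverAct.of_algEquiv H₂ δ ζ₂ hζ₂ hδ₂, one_smul _ _,
    rfl⟩

/-- the Galois elements: inertial on the base, acting on the generators through roots of unity -/
theorem CoverAct₂.of_isInertial [HasPrincipalDivisors L F₀]
    [HasPrincipalDivisors (IsLocalRing.ResidueField A) K₁]
    [HasPrincipalDivisors (IsLocalRing.ResidueField A) K₂] (H₁ : KummerLift D1 e u₁ h₁ ybar₁)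
    (H₂ : KummerLift D2 e u₂ h₂ ybar₂) {σ : SemilinearAut L F} {σ₀ : SemilinearAut L F₀}
    (hI : (Unit.chartDatum D1 D2 y c₀ s x₁ x₂).IsInertial σ₀)
    (hcompat : ∀ f₀ : F₀, σ • algebraMap F₀ F f₀ = algebraMap F₀ F (σ₀ • f₀))
    (hy : σ₀ • y = y) (hc₀ : SemilinearAut.baseAut σ₀ (c₀ : L) = c₀) (ζ₁ ζ₂ : A)
    (hζ₁ : ζ₁ ^ e = 1) (hζ₂ : ζ₂ ^ e = 1) (hσ₁ : σ • h₁ = algebraMap L F (ζ₁ : L) * h₁)
    (hσ₂ : σ • h₂ = algebraMap L F (ζ₂ : L) * h₂) :
    CoverAct₂ H₁ H₂ y c₀ σ ζ₁ ζ₂ :=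
  ⟨σ₀, ⟨hcompat, hI.base_div_mem, hI.mem₁, hI.red₁, hζ₁, hσ₁⟩,
    ⟨hcompat, hI.base_div_mem, hI.mem₂, hI.red₂, hζ₂, hσ₂⟩, hy, hc₀⟩

end Pair

/-! ### values at a totally ramified place -/

section Value

variable {𝕜 M₀ M : Type*} [Field 𝕜] [Field M₀] [Field M] [Algebra 𝕜 M₀] [Algebra 𝕜 M]
  [Algebra M₀ M] [IsScalarTower 𝕜 M₀ M] [Algebra.IsIntegral M₀ M]
  [HasPrincipalDivisors 𝕜 M] [FundamentalIdentity 𝕜 M₀ M]
variable {e : ℕ} {ubar : M₀} {ybar : M}

/-- **a deck transformation fixes the values at a totally ramified place** -/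
theorem valAt_deck (H : IsKummerGen e ubar ybar) (hdeg : ∀ w : Place 𝕜 M, w.deg = 1)
    (hdeg₀ : ∀ x : Place 𝕜 M₀, x.deg = 1) {w : Place 𝕜 M}
    (hx : IsCoprime (e : ℤ) ((w.restrict M₀).ord ubar)) (δ : M ≃ₐ[M₀] M) {z : M}
    (hz : z ∈ w.toValuationSubring) :
    δ z ∈ w.toValuationSubring ∧ Core.valAt w (δ z) = Core.valAt w z := by
  have hw : (δ.restrictScalars 𝕜) • w = w := smul_eq_of_isCoprime H hdeg hdeg₀ hx δ
  obtain ⟨c, hc⟩ := Core.exists_vanishAt_sub w (hdeg w) hz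
  have h1 : HasValueAt w z c := hc
  have h2 : HasValueAt ((δ.restrictScalars 𝕜) • w) ((δ.restrictScalars 𝕜) z) c :=
    (hasValueAt_algEquiv_iff (δ.restrictScalars 𝕜) w z c).2 h1
  rw [hw] at h2
  have h3 : Core.VanishAt w (δ z - algebraMap 𝕜 M c) := h2
  refine ⟨?_, ?_⟩
  · have : δ z = (δ z - algebraMap 𝕜 M c) + algebraMap 𝕜 M c := by ring
    rw [this]
    exact w.toValuationSubring.add_mem _ _ h3.mem (w.algebraMap_mem' c)
  · rw [Core.valAt_eq_of_vanishAt h3, Core.valAt_eq_of_vanishAt hc]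

end Value

/-! ### the chart datum of a cover -/

section Two

variable {L : Type*} [Field L] {A : ValuationSubring L}
variable {F₀ : Type*} [Field F₀] [Algebra L F₀]
variable {K₁ K₂ : Type*} [Field K₁] [Field K₂]
variable [Algebra (IsLocalRing.ResidueField A) K₁] [Algebra (IsLocalRing.ResidueField A) K₂]
variable {F : Type*} [Field F] [Algebra L F] [Algebra F₀ F] [IsScalarTower L F₀ F]
variable {K₁' K₂' : Type*} [Field K₁'] [Field K₂']
variable [Algebra (IsLocalRing.ResidueField A) K₁'] [Algebra K₁ K₁']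
variable [IsScalarTower (IsLocalRing.ResidueField A) K₁ K₁']
variable [Algebra (IsLocalRing.ResidueField A) K₂'] [Algebra K₂ K₂']
variable [IsScalarTower (IsLocalRing.ResidueField A) K₂ K₂']

local notation "k" => IsLocalRing.ResidueField A

variable [HasPrincipalDivisors L F] [HasPrincipalDivisors (IsLocalRing.ResidueField A) K₁']
variable [HasPrincipalDivisors (IsLocalRing.ResidueField A) K₂']
variable [Algebra.IsIntegral K₁ K₁'] [Algebra.IsIntegral K₂ K₂']
variable [FundamentalIdentity (IsLocalRing.ResidueField A) K₁ K₁']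
variable [FundamentalIdentity (IsLocalRing.ResidueField A) K₂ K₂']

variable {D1 : GaussDatum A F₀ K₁} {D2 : GaussDatum A F₀ K₂} {e : ℕ} {u₁ u₂ : F₀} {h₁ h₂ : F}
  {ybar₁ : K₁'} {ybar₂ : K₂'}

/-- **LGC-C, generic form.**  An automorphism of the cover which is `D_i`-inertial on the base and
multiplies the two Kummer generators by roots of unity is node-inertial for the chart datum of the
cover, provided it fixes the chart coordinate `y`, the chart constant `c₀`, and the nodes of the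
cover are totally ramified over the base. -/
theorem isNodeInertial_cover (H₁ : KummerLift D1 e u₁ h₁ ybar₁) (H₂ : KummerLift D2 e u₂ h₂ ybar₂)
    (y : F₀) (c₀ : A) (s : ℕ) (x₁' : Fin s → Place k K₁') (x₂' : Fin s → Place k K₂')
    {σ : SemilinearAut L F} {σ₀ : SemilinearAut L F₀} {ζ₁ ζ₂ : A}
    (hσ₁ : CoverAct H₁ σ σ₀ ζ₁) (hσ₂ : CoverAct H₂ σ σ₀ ζ₂)
    (hy : σ₀ • y = y) (hc₀ : SemilinearAut.baseAut σ₀ (c₀ : L) = c₀)
    (hdeg₁ : ∀ w : Place k K₁', w.deg = 1) (hdeg₁₀ : ∀ x : Place k K₁, x.deg = 1)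
    (hdeg₂ : ∀ w : Place k K₂', w.deg = 1) (hdeg₂₀ : ∀ x : Place k K₂, x.deg = 1)
    (hn₁ : ∀ c, IsCoprime (e : ℤ) (((x₁' c).restrict K₁).ord (D1.redF u₁)))
    (hn₂ : ∀ c, IsCoprime (e : ℤ) (((x₂' c).restrict K₂).ord (D2.redF u₂))) :
    IsNodeInertial
      (Unit.chartDatum (gaussExt H₁) (gaussExt H₂) (algebraMap F₀ F y) c₀ s x₁' x₂') σ where
  pres₁ := hσ₁.preserves
  pres₂ := hσ₂.preserves
  const₁ := hσ₁.fixesConst
  const₂ := hσ₂.fixesConst
  node₁ := fun f hf c hc => by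
    have hf' : f ∈ (gaussExt H₁).O := hf
    show (gaussExt H₁).redF (σ • f) ∈ (x₁' c).toValuationSubring ∧
      Core.valAt (x₁' c) ((gaussExt H₁).redF (σ • f)) = Core.valAt (x₁' c) ((gaussExt H₁).redF f)
    rw [hσ₁.redF_smul hf']
    exact valAt_deck H₁.genbar hdeg₁ hdeg₁₀ (hn₁ c) _ hc
  node₂ := fun f hf c hc => by
    have hf' : f ∈ (gaussExt H₂).O := hf
    show (gaussExt H₂).redF (σ • f) ∈ (x₂' c).toValuationSubring ∧
      Core.valAt (x₂' c) ((gaussExt H₂).redF (σ • f)) = Core.valAt (x₂' c) ((gaussExt H₂).redF f)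
    rw [hσ₂.redF_smul hf']
    exact valAt_deck H₂.genbar hdeg₂ hdeg₂₀ (hn₂ c) _ hc
  smul_P₁ := by
    rw [Unit.chartDatum_P₁, S37lib.B3.smul_polesOf, hσ₁.compat, hy]
  smul_P₂ := by
    rw [Unit.chartDatum_P₂, Kum.smul_zerosOf, smul_sub, hσ₁.compat, hy,
      SemilinearAut.smul_algebraMap, hσ₁.baseAut_eq, hc₀]

end Two

/-! ### the packaged form for helper2's `KC.nodalCtx_cover` -/

section Three

variable {L : Type*} [Field L] {A : ValuationSubring L}
variable {F₀ : Type*} [Field F₀] [Algebra L F₀]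
variable {K₁ K₂ : Type*} [Field K₁] [Field K₂]
variable [Algebra (IsLocalRing.ResidueField A) K₁] [Algebra (IsLocalRing.ResidueField A) K₂]
variable {F : Type*} [Field F] [Algebra L F] [Algebra F₀ F] [IsScalarTower L F₀ F]
variable {K₁' K₂' : Type*} [Field K₁'] [Field K₂']
variable [Algebra (IsLocalRing.ResidueField A) K₁'] [Algebra K₁ K₁']
variable [IsScalarTower (IsLocalRing.ResidueField A) K₁ K₁']
variable [Algebra (IsLocalRing.ResidueField A) K₂'] [Algebra K₂ K₂']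
variable [IsScalarTower (IsLocalRing.ResidueField A) K₂ K₂']

local notation "k" => IsLocalRing.ResidueField A

variable [HasPrincipalDivisors L F₀] [HasPrincipalDivisors (IsLocalRing.ResidueField A) K₁]
variable [HasPrincipalDivisors (IsLocalRing.ResidueField A) K₂]
variable [HasPrincipalDivisors L F] [HasPrincipalDivisors (IsLocalRing.ResidueField A) K₁']
variable [HasPrincipalDivisors (IsLocalRing.ResidueField A) K₂']
variable [Algebra.IsIntegral K₁ K₁'] [Algebra.IsIntegral K₂ K₂']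

variable {D1 : GaussDatum A F₀ K₁} {D2 : GaussDatum A F₀ K₂} {s : ℕ}
  {x₁ : Fin s → Place (IsLocalRing.ResidueField A) K₁}
  {x₂ : Fin s → Place (IsLocalRing.ResidueField A) K₂} {e : ℕ} {u₁ u₂ : F₀} {h₁ h₂ : F}
  {ybar₁ : K₁'} {ybar₂ : K₂'} {ζ : A} {y : F₀} {c₀ : A}

/-- **LGC-C for a Kummer cover** (`KC.IsKummerCover`, `KC.nodalCtx_cover`): with the node points
`x_i'` of the cover above those of the base. -/
theorem isNodeInertial_of_isKummerCover
    (H : IsKummerCover D1 D2 x₁ x₂ e u₁ u₂ h₁ h₂ ybar₁ ybar₂ ζ) {g₀ g₁ g₂ : ℕ}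
    (C₀ : NodalCtx (Unit.chartDatum D1 D2 y c₀ s x₁ x₂) g₀ g₁ g₂)
    {x₁' : Fin s → Place k K₁'} {x₂' : Fin s → Place k K₂'}
    (hx₁' : ∀ c, (x₁' c).restrict K₁ = x₁ c) (hx₂' : ∀ c, (x₂' c).restrict K₂ = x₂ c)
    {g g₁' g₂' : ℕ}
    (C : NodalCtx (Unit.chartDatum (gaussExt H.lift₁) (gaussExt H.lift₂) (algebraMap F₀ F y) c₀ s
      x₁' x₂') g g₁' g₂')
    {σ : SemilinearAut L F} {σ₀ : SemilinearAut L F₀} {ζ₁ ζ₂ : A}
    (hσ₁ : CoverAct H.lift₁ σ σ₀ ζ₁) (hσ₂ : CoverAct H.lift₂ σ σ₀ ζ₂)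
    (hy : σ₀ • y = y) (hc₀ : SemilinearAut.baseAut σ₀ (c₀ : L) = c₀) :
    IsNodeInertial
      (Unit.chartDatum (gaussExt H.lift₁) (gaussExt H.lift₂) (algebraMap F₀ F y) c₀ s x₁' x₂')
      σ := by
  have hK₁ : IsCurveOfGenus k K₁' g₁' := C.hF₁
  have hK₂ : IsCurveOfGenus k K₂' g₂' := C.hF₂
  haveI : FiniteDimensional K₁ K₁' := H.lift₁.genbar.finiteDimensional
  haveI : FiniteDimensional K₂ K₂' := H.lift₂.genbar.finiteDimensional
  haveI : Algebra.IsSeparable K₁ K₁' := H.lift₁.genbar.isSeparable H.e_ne_zero₁ H.red_ne₁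
  haveI : Algebra.IsSeparable K₂ K₂' := H.lift₂.genbar.isSeparable H.e_ne_zero₂ H.red_ne₂
  haveI : FundamentalIdentity k K₁ K₁' := S37lib.Tower.fundamentalIdentity hK₁.deg_eq_one
  haveI : FundamentalIdentity k K₂ K₂' := S37lib.Tower.fundamentalIdentity hK₂.deg_eq_one
  have hd₁ : ∀ x : Place k K₁, x.deg = 1 := C₀.hF₁.deg_eq_one
  have hd₂ : ∀ x : Place k K₂, x.deg = 1 := C₀.hF₂.deg_eq_one
  exact isNodeInertial_cover H.lift₁ H.lift₂ y c₀ s x₁' x₂' hσ₁ hσ₂ hy hc₀ hK₁.deg_eq_one hd₁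
    hK₂.deg_eq_one hd₂ (fun c => by rw [hx₁']; exact H.node₁ c)
    (fun c => by rw [hx₂']; exact H.node₂ c)

section Cover

variable (H : IsKummerCover D1 D2 x₁ x₂ e u₁ u₂ h₁ h₂ ybar₁ ybar₂ ζ) {g₀ g₁ g₂ : ℕ}
  (C₀ : NodalCtx (Unit.chartDatum D1 D2 y c₀ s x₁ x₂) g₀ g₁ g₂)
  {x₁' : Fin s → Place (IsLocalRing.ResidueField A) K₁'}
  {x₂' : Fin s → Place (IsLocalRing.ResidueField A) K₂'}
  (hx₁' : ∀ c, (x₁' c).restrict K₁ = x₁ c) (hx₂' : ∀ c, (x₂' c).restrict K₂ = x₂ c)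
  {g g₁' g₂' : ℕ}
  (C : NodalCtx (Unit.chartDatum (gaussExt H.lift₁) (gaussExt H.lift₂) (algebraMap F₀ F y) c₀ s
      x₁' x₂') g g₁' g₂')

include C₀ hx₁' hx₂' C

theorem CoverAct₂.isNodeInertial {σ : SemilinearAut L F} {ζ₁ ζ₂ : A}
    (hσ : CoverAct₂ H.lift₁ H.lift₂ y c₀ σ ζ₁ ζ₂) :
    IsNodeInertial
      (Unit.chartDatum (gaussExt H.lift₁) (gaussExt H.lift₂) (algebraMap F₀ F y) c₀ s x₁' x₂')
      σ := by
  obtain ⟨σ₀, h1, h2, hy, hc⟩ := hσ
  exact isNodeInertial_of_isKummerCover H C₀ hx₁' hx₂' C h1 h2 hy hc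

/-- **THE WORDS on the torsion of `Pic⁰` of a Kummer cover.**  `t t'` act trivially on the first
component (`ζ₁ = 1`) and `t` acts on the second component like `d` (same `ζ₂`); `d'` arbitrary.  Then
`(d' - 1)(t' - 1)(t - d) x = 0` and `(d' - 1)(t - d)(t' - 1) x = 0` for `x ∈ Pic⁰(F)[n]`,
`n` invertible in the residue field. -/
theorem pic0_word_cover {t t' d d' : SemilinearAut L F} {ζt ζt' ξ ξ₁ ξ₂ : A}
    (ht : CoverAct₂ H.lift₁ H.lift₂ y c₀ t 1 ζt) (ht' : CoverAct₂ H.lift₁ H.lift₂ y c₀ t' 1 ζt')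
    (hd : CoverAct₂ H.lift₁ H.lift₂ y c₀ d ξ ζt) (hd' : CoverAct₂ H.lift₁ H.lift₂ y c₀ d' ξ₁ ξ₂)
    {n : ℕ} (hn : (n : IsLocalRing.ResidueField A) ≠ 0) {x : Pic0 L F} (hx : n • x = 0) :
    d' • (t' • (t • x - d • x) - (t • x - d • x)) = t' • (t • x - d • x) - (t • x - d • x) ∧
    d' • (t • (t' • x - x) - d • (t' • x - x)) = t • (t' • x - x) - d • (t' • x - x) := by
  have h1 := CoverAct₂.one (F := F) H.lift₁ H.lift₂ y c₀
  have It := CoverAct₂.isNodeInertial H C₀ hx₁' hx₂' C ht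
  have It' := CoverAct₂.isNodeInertial H C₀ hx₁' hx₂' C ht'
  have Id := CoverAct₂.isNodeInertial H C₀ hx₁' hx₂' C hd
  have Id' := CoverAct₂.isNodeInertial H C₀ hx₁' hx₂' C hd'
  have I1 := CoverAct₂.isNodeInertial H C₀ hx₁' hx₂' C h1
  obtain ⟨t₀, ht1, ht2, -, -⟩ := ht
  obtain ⟨t₀', ht1', ht2', -, -⟩ := ht'
  obtain ⟨d₀, hd1, hd2, -, -⟩ := hd
  obtain ⟨o₀, ho1, ho2, -, -⟩ := h1
  -- `t' ~ 1` on the first component, `t ~ d` on the second
  have s1 : SameRed (gaussExt H.lift₁) t' 1 := ht1'.sameRed ho1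
  have s2 : SameRed (gaussExt H.lift₂) t d := ht2.sameRed hd2
  constructor
  · have := pic0_word C It' I1 It Id Id' hn (Or.inl s1) (Or.inr s2) hx
    simpa only [one_smul] using this
  · have := pic0_word C It Id It' I1 Id' hn (Or.inr s1) (Or.inl s2) hx
    simpa only [one_smul] using this

end Cover

end Three

end Fermat.Agent.S43lib.LGC.Abs
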